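import Mathlib

/-!
# Partial fractions for the hyperbolic cotangent

`coth (π x) = 1 + 2 / (e ^ (2 π x) - 1)` and
`∑_{k ≥ 1} 1 / (k² + x²) = (π x coth (π x) - 1) / (2 x²)`
for `x > 0`, read off from Mathlib's series of the cotangent at `i x`.
-/

set_option autoImplicit false

noncomputable section

open Complex
open scoped Real UpperHalfPlane

namespace FA.RamanujanZeta

/-- `coth (π x)`. -/
def cothPi (x : ℝ) : ℝ := 1 + 2 / (Real.exp (2 * π * x) - 1)

theorem cothPi_eq_cosh_div_sinh {x : ℝ} (hx : 0 < x) :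
    cothPi x = Real.cosh (π * x) / Real.sinh (π * x) := by
  have h1 : 1 < Real.exp (π * x) := Real.one_lt_exp_iff.2 (by positivity)
  have h2 : Real.exp (2 * π * x) = Real.exp (π * x) ^ 2 := by
    rw [← Real.exp_nat_mul]; ring_nf
  have h3 : Real.exp (π * x) ^ 2 - 1 ≠ 0 := by nlinarith
  rw [cothPi, h2, Real.cosh_eq, Real.sinh_eq, Real.exp_neg]
  field_simp
  ring

/-- The partial fractions of `coth (π x)`. -/
theorem hasSum_inv_sq_add_sq {x : ℝ} (hx : 0 < x) :
    HasSum (fun k : ℕ => 1 / (((k : ℝ) + 1) ^ 2 + x ^ 2))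
      ((π * x * cothPi x - 1) / (2 * x ^ 2)) := by
  set z : ℂ := (x : ℂ) * I with hz
  have hzim : 0 < z.im := by simpa [hz] using hx
  have hmem : z ∈ Complex.integerComplement := by
    rintro ⟨n, hn⟩
    rw [← hn] at hzim
    simp at hzim
  set q := cexp (2 * π * I * z) with hq
  have hqx : q = (Real.exp (-(2 * π * x)) : ℂ) := by
    rw [hq, Complex.ofReal_exp]
    congr 1
    push_cast [hz]
    linear_combination (2 * (π : ℂ) * x) * I_mul_I
  have hqnorm : ‖q‖ < 1 := UpperHalfPlane.norm_exp_two_pi_I_lt_one ⟨z, hzim⟩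
  have hexp := pi_mul_cot_pi_q_exp ⟨z, hzim⟩
  simp only at hexp
  rw [tsum_geometric_of_norm_lt_one hqnorm] at hexp
  have hexp1 : 1 < Real.exp (2 * π * x) := Real.one_lt_exp_iff.2 (by positivity)
  have hcot : π * Complex.cot (π * z) = -(π * cothPi x : ℝ) * I := by
    rw [hexp, hqx, Real.exp_neg, cothPi]
    generalize Real.exp (2 * π * x) = E at hexp1 ⊢
    have hne : (E : ℂ) ≠ 0 := Complex.ofReal_ne_zero.2 (by linarith)
    have hne1 : (E : ℂ) - 1 ≠ 0 := by
      rw [← Complex.ofReal_one, ← Complex.ofReal_sub]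
      exact Complex.ofReal_ne_zero.2 (by linarith)
    push_cast
    rw [show (1 : ℂ) - (E : ℂ)⁻¹ = ((E : ℂ) - 1) / E by field_simp]
    field_simp
    ring
  have hs : HasSum (fun n : ℕ => 1 / (z - ((n : ℂ) + 1)) + 1 / (z + ((n : ℂ) + 1)))
      (π * Complex.cot (π * z) - 1 / z) := by
    rw [cot_series_rep' hmem]
    exact (summable_cotTerm hmem).hasSum
  have h2 := hs.mul_left (I / (2 * x : ℂ))
  have hx0 : (x : ℂ) ≠ 0 := by simp [hx.ne']
  rw [← Complex.hasSum_ofReal]
  have hval : I / (2 * x : ℂ) * (π * Complex.cot (π * z) - 1 / z) =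
      (((π * x * cothPi x - 1) / (2 * x ^ 2) : ℝ) : ℂ) := by
    rw [hcot, hz]
    push_cast
    field_simp
    linear_combination (-((π : ℂ) * x * cothPi x)) * I_mul_I
  rw [hval] at h2
  refine h2.congr_fun fun k => ?_
  have ha : z - ((k : ℂ) + 1) ≠ 0 := fun h => by
    have := congrArg Complex.im h
    simp [hz] at this; linarith
  have hb : z + ((k : ℂ) + 1) ≠ 0 := fun h => by
    have := congrArg Complex.im h
    simp [hz] at this; linarith
  have hc : ((k : ℂ) + 1) ^ 2 + (x : ℂ) ^ 2 ≠ 0 := by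
    rw [show ((k : ℂ) + 1) ^ 2 + (x : ℂ) ^ 2 = -((z - ((k : ℂ) + 1)) * (z + ((k : ℂ) + 1))) by
      rw [hz]; linear_combination (x : ℂ) ^ 2 * I_mul_I]
    exact neg_ne_zero.2 (mul_ne_zero ha hb)
  push_cast
  field_simp
  rw [hz]
  linear_combination (-(2 * (x : ℂ) * ((k : ℂ) + 1) ^ 2)) * I_mul_I

end FA.RamanujanZeta

end
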