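import Fermat.Agent.RamanujanZeta.Coth

/-!
# Ramanujan's formula for `ζ (2 N + 1)`

`π ∑ coth (π m r) / m ^ (2 N + 1)` is opened with the partial fractions of `coth`; the double
series `∑ 1 / (m ^ (2 N) (k² + m² r²))` is turned over by the identity
`1 / (u ^ N (v + q u)) = ∑_{j < N} (-q) ^ j / (v ^ (j + 1) u ^ (N - j))
+ (-q) ^ N / (v ^ N (v + q u))`.
-/

set_option autoImplicit false

noncomputable section

open Finset
open scoped Real Nat

namespace FA.RamanujanZeta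

/-- `∑ 1 / (m + 1) ^ s`. -/
def pser (s : ℕ) : ℝ := ∑' m : ℕ, 1 / ((m : ℝ) + 1) ^ s

/-- `∑ 1 / ((m + 1) ^ s (exp (2 π r (m + 1)) - 1))`. -/
def lser (s : ℕ) (r : ℝ) : ℝ :=
  ∑' m : ℕ, 1 / (((m : ℝ) + 1) ^ s * (Real.exp (2 * π * (r * ((m : ℝ) + 1))) - 1))

theorem hasSum_pser {s : ℕ} (hs : 2 ≤ s) :
    HasSum (fun m : ℕ => 1 / ((m : ℝ) + 1) ^ s) (pser s) := by
  refine Summable.hasSum ?_
  have := (summable_nat_add_iff (f := fun n : ℕ => 1 / (n : ℝ) ^ s) 1).2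
    (Real.summable_one_div_nat_pow.2 (by omega))
  simpa using this

theorem hasSum_lser {s : ℕ} (hs : 2 ≤ s) {r : ℝ} (hr : 0 < r) :
    HasSum (fun m : ℕ => 1 / (((m : ℝ) + 1) ^ s * (Real.exp (2 * π * (r * ((m : ℝ) + 1))) - 1)))
      (lser s r) := by
  refine Summable.hasSum ?_
  have hc : 0 < 2 * π * r := by positivity
  refine Summable.of_nonneg_of_le (fun m => ?_) (fun m => ?_)
    ((hasSum_pser hs).summable.mul_left (1 / (2 * π * r)))
  · have : 1 ≤ Real.exp (2 * π * (r * ((m : ℝ) + 1))) := Real.one_le_exp (by positivity)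
    have : (0 : ℝ) ≤ Real.exp (2 * π * (r * ((m : ℝ) + 1))) - 1 := by linarith
    positivity
  · have h1 : 2 * π * r ≤ Real.exp (2 * π * (r * ((m : ℝ) + 1))) - 1 := by
      have := Real.add_one_le_exp (2 * π * (r * ((m : ℝ) + 1)))
      nlinarith [mul_nonneg hc.le (Nat.cast_nonneg m : (0 : ℝ) ≤ m)]
    rw [div_mul_div_comm, one_mul]
    refine one_div_le_one_div_of_le (by positivity) ?_
    rw [mul_comm]
    gcongr

/-- `∑ coth (π r m) / m ^ s`. -/
theorem hasSum_cothPi {s : ℕ} (hs : 2 ≤ s) {r : ℝ} (hr : 0 < r) :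
    HasSum (fun m : ℕ => cothPi (r * ((m : ℝ) + 1)) / ((m : ℝ) + 1) ^ s)
      (pser s + 2 * lser s r) := by
  refine ((hasSum_pser hs).add ((hasSum_lser hs hr).mul_left 2)).congr_fun fun m => ?_
  rw [cothPi]
  field_simp

theorem partial_fraction {u v q : ℝ} (hu : u ≠ 0) (hv : v ≠ 0) (h : v + q * u ≠ 0) (N : ℕ) :
    1 / (u ^ N * (v + q * u)) = ∑ j ∈ range N, (-q) ^ j / (v ^ (j + 1) * u ^ (N - j)) +
      (-q) ^ N / (v ^ N * (v + q * u)) := by
  induction N with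
  | zero => simp
  | succ N ih =>
    have e : 1 / (u ^ (N + 1) * (v + q * u)) =
        1 / (v * u ^ (N + 1)) + -q / v * (1 / (u ^ N * (v + q * u))) := by
      field_simp
      ring
    rw [e, ih, Finset.sum_range_succ', mul_add, Finset.mul_sum]
    have e2 : ∀ j : ℕ, -q / v * ((-q) ^ j / (v ^ (j + 1) * u ^ (N - j))) =
        (-q) ^ (j + 1) / (v ^ (j + 1 + 1) * u ^ (N + 1 - (j + 1))) := fun j => by
      rw [Nat.succ_sub_succ, div_mul_div_comm]
      ring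
    simp only [e2, Nat.sub_zero, pow_zero, zero_add, pow_one]
    have e3 : -q / v * ((-q) ^ N / (v ^ N * (v + q * u))) =
        (-q) ^ (N + 1) / (v ^ (N + 1) * (v + q * u)) := by
      rw [div_mul_div_comm]; ring
    rw [e3]
    ring

/-- The double series, in the order `(m, k)`. -/
def dterm (N : ℕ) (r : ℝ) (p : ℕ × ℕ) : ℝ :=
  1 / ((((p.1 : ℝ) + 1) ^ 2) ^ N * (((p.2 : ℝ) + 1) ^ 2 + r ^ 2 * ((p.1 : ℝ) + 1) ^ 2))

/-- The double series, turned over. -/
def eterm (N : ℕ) (r : ℝ) (p : ℕ × ℕ) : ℝ :=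
  1 / ((((p.2 : ℝ) + 1) ^ 2) ^ N * (((p.2 : ℝ) + 1) ^ 2 + r ^ 2 * ((p.1 : ℝ) + 1) ^ 2))

theorem hasSum_prod_pser {a b : ℕ} (ha : 2 ≤ a) (hb : 2 ≤ b) :
    HasSum (fun p : ℕ × ℕ => 1 / ((p.1 : ℝ) + 1) ^ a * (1 / ((p.2 : ℝ) + 1) ^ b))
      (pser a * pser b) := by
  refine (hasSum_pser ha).mul (hasSum_pser hb) (Summable.mul_of_nonneg (hasSum_pser ha).summable
    (hasSum_pser hb).summable (fun m => by positivity) (fun m => by positivity))

theorem summable_dterm {N : ℕ} (hN : 1 ≤ N) (r : ℝ) : Summable (dterm N r) := by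
  refine Summable.of_nonneg_of_le (fun p => by rw [dterm]; positivity) (fun p => ?_)
    (hasSum_prod_pser (a := 2 * N) (b := 2) (by omega) le_rfl).summable
  rw [dterm, ← pow_mul, one_div_mul_one_div]
  refine one_div_le_one_div_of_le (by positivity) ?_
  gcongr
  exact le_add_of_nonneg_right (by positivity)

theorem summable_eterm {N : ℕ} (hN : 1 ≤ N) {r : ℝ} (hr : 0 < r) : Summable (eterm N r) := by
  refine Summable.of_nonneg_of_le (fun p => by rw [eterm]; positivity) (fun p => ?_)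
    ((hasSum_prod_pser (a := 2) (b := 2 * N) le_rfl (by omega)).summable.mul_left (1 / r ^ 2))
  rw [eterm, ← pow_mul, one_div_mul_one_div, one_div_mul_one_div]
  refine one_div_le_one_div_of_le (by positivity) ?_
  rw [show r ^ 2 * (((p.1 : ℝ) + 1) ^ 2 * ((p.2 : ℝ) + 1) ^ (2 * N)) =
    ((p.2 : ℝ) + 1) ^ (2 * N) * (r ^ 2 * ((p.1 : ℝ) + 1) ^ 2) by ring]
  gcongr
  exact le_add_of_nonneg_left (by positivity)

theorem tsum_dterm {N : ℕ} (hN : 1 ≤ N) {r : ℝ} (hr : 0 < r) :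
    ∑' p, dterm N r p = (π * r * (pser (2 * N + 1) + 2 * lser (2 * N + 1) r) -
      pser (2 * N + 2)) / (2 * r ^ 2) := by
  refine HasSum.unique (HasSum.prod_fiberwise (summable_dterm hN r).hasSum
    (fun m => ?_)) ((((hasSum_cothPi (s := 2 * N + 1) (by omega) hr).mul_left (π * r)).sub
      (hasSum_pser (s := 2 * N + 2) (by omega))).div_const (2 * r ^ 2))
  have hx : (0 : ℝ) < r * ((m : ℝ) + 1) := by positivity
  have h := (hasSum_inv_sq_add_sq hx).mul_left (1 / (((m : ℝ) + 1) ^ 2) ^ N)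
  have e : 1 / (((m : ℝ) + 1) ^ 2) ^ N * ((π * (r * ((m : ℝ) + 1)) * cothPi (r * ((m : ℝ) + 1))
      - 1) / (2 * (r * ((m : ℝ) + 1)) ^ 2)) = (π * r * (cothPi (r * ((m : ℝ) + 1)) /
      ((m : ℝ) + 1) ^ (2 * N + 1)) - 1 / ((m : ℝ) + 1) ^ (2 * N + 2)) / (2 * r ^ 2) := by
    rw [← pow_mul, pow_succ _ (2 * N), pow_add _ (2 * N) 2]
    field_simp
  rw [e] at h
  refine h.congr_fun fun k => ?_
  rw [dterm, mul_pow, one_div_mul_one_div]

theorem tsum_eterm {N : ℕ} (hN : 1 ≤ N) {r : ℝ} (hr : 0 < r) :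
    ∑' p, eterm N r p = π / (2 * r) * (pser (2 * N + 1) + 2 * lser (2 * N + 1) r⁻¹) -
      pser (2 * N + 2) / 2 := by
  have h1 := ((Equiv.prodComm ℕ ℕ).summable_iff).2 (summable_eterm hN hr)
  rw [← (Equiv.prodComm ℕ ℕ).tsum_eq (eterm N r)]
  refine HasSum.unique (HasSum.prod_fiberwise h1.hasSum (fun k => ?_))
    (((hasSum_cothPi (s := 2 * N + 1) (by omega) (inv_pos.2 hr)).mul_left (π / (2 * r))).sub
      ((hasSum_pser (s := 2 * N + 2) (by omega)).div_const 2))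
  have hx : (0 : ℝ) < r⁻¹ * ((k : ℝ) + 1) := by positivity
  have h := (hasSum_inv_sq_add_sq hx).mul_left (1 / (r ^ 2 * (((k : ℝ) + 1) ^ 2) ^ N))
  have e : 1 / (r ^ 2 * (((k : ℝ) + 1) ^ 2) ^ N) * ((π * (r⁻¹ * ((k : ℝ) + 1)) *
      cothPi (r⁻¹ * ((k : ℝ) + 1)) - 1) / (2 * (r⁻¹ * ((k : ℝ) + 1)) ^ 2)) =
      π / (2 * r) * (cothPi (r⁻¹ * ((k : ℝ) + 1)) / ((k : ℝ) + 1) ^ (2 * N + 1)) -
      1 / ((k : ℝ) + 1) ^ (2 * N + 2) / 2 := by
    rw [← pow_mul, pow_succ _ (2 * N), pow_add _ (2 * N) 2]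
    field_simp
  rw [e] at h
  refine h.congr_fun fun m => ?_
  simp only [Function.comp_apply, Equiv.prodComm_apply, Prod.swap_prod_mk, eterm]
  field_simp
  ring

theorem tsum_dterm_eq {N : ℕ} (hN : 1 ≤ N) {r : ℝ} (hr : 0 < r) :
    ∑' p, dterm N r p = ∑ j ∈ range N, (-r ^ 2) ^ j * (pser (2 * N - 2 * j) * pser (2 * j + 2)) +
      (-r ^ 2) ^ N * ∑' p, eterm N r p := by
  refine HasSum.tsum_eq ?_
  have h1 : HasSum (fun p : ℕ × ℕ => ∑ j ∈ range N, (-r ^ 2) ^ j *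
      (1 / ((p.1 : ℝ) + 1) ^ (2 * N - 2 * j) * (1 / ((p.2 : ℝ) + 1) ^ (2 * j + 2))))
      (∑ j ∈ range N, (-r ^ 2) ^ j * (pser (2 * N - 2 * j) * pser (2 * j + 2))) :=
    hasSum_sum fun j hj => (hasSum_prod_pser (by
      have := Finset.mem_range.1 hj; omega) (by omega)).mul_left _
  refine (h1.add ((summable_eterm hN hr).hasSum.mul_left _)).congr_fun fun p => ?_
  rw [dterm, eterm, partial_fraction (by positivity) (by positivity) (by positivity), mul_one_div]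
  congr 1
  refine Finset.sum_congr rfl fun j _ => ?_
  rw [← pow_mul, ← pow_mul, show 2 * (N - j) = 2 * N - 2 * j by omega,
    show 2 * (j + 1) = 2 * j + 2 by ring, one_div_mul_one_div, mul_one_div, mul_comm]

/-- The transformation, before Euler's values are inserted. -/
theorem transformation {N : ℕ} (hN : 1 ≤ N) {r : ℝ} (hr : 0 < r) :
    π * (pser (2 * N + 1) + 2 * lser (2 * N + 1) r) =
      pser (2 * N + 2) / r +
        2 * r * ∑ j ∈ range N, (-r ^ 2) ^ j * (pser (2 * N - 2 * j) * pser (2 * j + 2)) +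
        (-r ^ 2) ^ N * (π * (pser (2 * N + 1) + 2 * lser (2 * N + 1) r⁻¹) -
          r * pser (2 * N + 2)) := by
  have h := tsum_dterm_eq hN hr
  rw [tsum_dterm hN hr, tsum_eterm hN hr] at h
  field_simp at h ⊢
  linear_combination h

/-- `B (2 j) / (2 j)!`. -/
def bdiv (j : ℕ) : ℝ := (bernoulli (2 * j) : ℝ) / ((2 * j)! : ℝ)

theorem pser_two_mul {j : ℕ} (hj : j ≠ 0) :
    pser (2 * j) = (-1) ^ (j + 1) * 2 ^ (2 * j) / 2 * π ^ (2 * j) * bdiv j := by
  have h := hasSum_zeta_nat hj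
  have h2 := (hasSum_nat_add_iff' 1).2 h
  simp only [Finset.sum_range_one, Nat.cast_add, Nat.cast_one, Nat.cast_zero] at h2
  rw [zero_pow (by omega : 2 * j ≠ 0), div_zero, sub_zero] at h2
  rw [(hasSum_pser (by omega)).unique h2]
  have h4 : (2 : ℝ) ^ (2 * j) = 2 ^ (2 * j - 1) * 2 := by
    rw [← pow_succ]; congr 1; omega
  rw [bdiv, h4]
  ring

theorem bdiv_zero : bdiv 0 = 1 := by simp [bdiv]

/-- **Ramanujan's formula**, in the variable `r = α / π`. -/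
theorem ramanujan_formula {N : ℕ} (hN : 1 ≤ N) {r : ℝ} (hr : 0 < r) :
    (pser (2 * N + 1) / 2 + lser (2 * N + 1) r) -
        (-r ^ 2) ^ N * (pser (2 * N + 1) / 2 + lser (2 * N + 1) r⁻¹) =
      (-1) ^ N * 2 ^ (2 * N) * π ^ (2 * N + 1) / r *
        ∑ j ∈ range (N + 2), (-r ^ 2) ^ j * (bdiv j * bdiv (N + 1 - j)) := by
  have h := transformation hN hr
  have hs : ∀ j ∈ range N, (-r ^ 2) ^ j * (pser (2 * N - 2 * j) * pser (2 * j + 2)) =
      (-1) ^ N * 2 ^ (2 * N) * π ^ (2 * N + 2) * (1 / r ^ 2) *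
        ((-r ^ 2) ^ (j + 1) * (bdiv (j + 1) * bdiv (N + 1 - (j + 1)))) := by
    intro j hj
    obtain ⟨i, hi⟩ : ∃ i, N = j + 1 + i := ⟨N - (j + 1), by have := Finset.mem_range.1 hj; omega⟩
    subst hi
    rw [show 2 * (j + 1 + i) - 2 * j = 2 * (i + 1) by omega,
      show j + 1 + i + 1 - (j + 1) = i + 1 by omega, show 2 * j + 2 = 2 * (j + 1) by ring,
      pser_two_mul (Nat.succ_ne_zero i), pser_two_mul (Nat.succ_ne_zero j)]
    simp only [Nat.succ_eq_add_one]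
    field_simp
    ring
  have e : ∀ K S : ℝ, 2 * r * (K * (1 / r ^ 2) * S) = 2 * K * S / r := fun K S => by
    field_simp
  rw [Finset.sum_congr rfl hs, ← Finset.mul_sum, e] at h
  have e2 : ∀ K A B : ℝ, K / r * (A + (-r ^ 2) ^ (N + 1) * B) =
      K * A / r - K * r * (-r ^ 2) ^ N * B := fun K A B => by
    field_simp
    ring
  rw [Finset.sum_range_succ _ (N + 1), e2, Finset.sum_range_succ' _ N]
  have hz := pser_two_mul (j := N + 1) (Nat.succ_ne_zero _)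
  rw [show 2 * (N + 1) = 2 * N + 2 by ring] at hz
  rw [hz] at h
  simp only [Nat.sub_self, Nat.sub_zero, bdiv_zero, pow_zero, one_mul, mul_one]
  refine mul_left_cancel₀ (mul_ne_zero (two_ne_zero' ℝ) Real.pi_ne_zero) ?_
  linear_combination h

theorem riemannZeta_eq_pser {k : ℕ} (hk : 2 ≤ k) : riemannZeta k = (pser k : ℂ) := by
  rw [zeta_eq_tsum_one_div_nat_add_one_cpow (by simp; omega), pser, Complex.ofReal_tsum]
  refine tsum_congr fun n => ?_
  push_cast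
  rw [Complex.cpow_natCast]

theorem lser_eq_tsum (k : ℕ) (α : ℝ) :
    lser k (α / π) = ∑' n : ℕ+, 1 / ((n : ℝ) ^ k * (Real.exp (2 * α * n) - 1)) := by
  rw [tsum_pnat_eq_tsum_succ (f := fun n : ℕ => 1 / ((n : ℝ) ^ k * (Real.exp (2 * α * n) - 1))),
    lser]
  refine tsum_congr fun n => ?_
  push_cast
  rw [show 2 * π * (α / π * ((n : ℝ) + 1)) = 2 * α * ((n : ℝ) + 1) by
    field_simp [Real.pi_ne_zero]]

/-- **Ramanujan's formula** for `α β = π²`. -/
theorem ramanujan_formula_alpha_beta {N : ℕ} (hN : 1 ≤ N) {α β : ℝ} (hα : 0 < α) (hβ : 0 < β)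
    (h : α * β = π ^ 2) :
    (α ^ N)⁻¹ * (pser (2 * N + 1) / 2 + lser (2 * N + 1) (α / π)) =
      ((-β) ^ N)⁻¹ * (pser (2 * N + 1) / 2 + lser (2 * N + 1) (β / π)) -
        2 ^ (2 * N) * ∑ k ∈ range (N + 2),
          (-1) ^ k * (bdiv k * bdiv (N + 1 - k)) * α ^ (N + 1 - k) * β ^ k := by
  have hπ := Real.pi_pos
  have hr : 0 < α / π := by positivity
  have hb : (α / π)⁻¹ = β / π := by
    field_simp
    linear_combination -h
  have hf := ramanujan_formula hN hr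
  rw [hb, ← Finset.sum_range_reflect] at hf
  have hterm : ∀ k ∈ range (N + 2), (-1 : ℝ) ^ N * π ^ (2 * N + 1) / (α / π) * (α ^ N)⁻¹ *
      ((-(α / π) ^ 2) ^ (N + 2 - 1 - k) * (bdiv (N + 2 - 1 - k) * bdiv (N + 1 - (N + 2 - 1 - k)))) =
      -((-1) ^ k * (bdiv k * bdiv (N + 1 - k)) * α ^ (N + 1 - k) * β ^ k) := by
    intro k hk
    obtain ⟨i, hi⟩ : ∃ i, N + 1 = k + i := ⟨N + 1 - k, by have := Finset.mem_range.1 hk; omega⟩
    have hβe : β = π ^ 2 / α := by field_simp; linear_combination h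
    rw [show N + 2 - 1 - k = i by omega, show N + 1 - i = k by omega,
      show N + 1 - k = i by omega, hβe, neg_eq_neg_one_mul ((α / π) ^ 2)]
    have hs : (-1 : ℝ) ^ N * (-1) ^ i = -(-1) ^ k := by
      have h2 : ((-1 : ℝ) ^ i) ^ 2 = 1 := by rw [← pow_mul, mul_comm, pow_mul]; norm_num
      have h3 : (-1 : ℝ) ^ N = -((-1) ^ k * (-1) ^ i) := by
        rw [← pow_add, ← hi, pow_succ]; ring
      rw [h3]; linear_combination (-((-1 : ℝ) ^ k)) * h2
    have hp : (π : ℝ) ^ (2 * N + 1) * π = π ^ (2 * k) * π ^ (2 * i) := by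
      rw [← pow_succ, ← pow_add]; congr 1; omega
    have ha : α ^ N * α = α ^ k * α ^ i := by rw [← pow_succ, ← pow_add, hi]
    calc (-1 : ℝ) ^ N * π ^ (2 * N + 1) / (α / π) * (α ^ N)⁻¹ *
          ((-1 * (α / π) ^ 2) ^ i * (bdiv i * bdiv k))
        = ((-1) ^ N * (-1) ^ i) * (bdiv k * bdiv i) * (π ^ (2 * N + 1) * π) * α ^ (2 * i) /
            ((α ^ N * α) * π ^ (2 * i)) := by
          rw [mul_pow, div_pow, div_pow, ← pow_mul, ← pow_mul]
          field_simp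
      _ = -((-1) ^ k * (bdiv k * bdiv i) * α ^ i * (π ^ 2 / α) ^ k) := by
          rw [hs, hp, ha, div_pow, ← pow_mul, two_mul i, pow_add α i i]
          field_simp
  have hsum := Finset.sum_congr rfl hterm
  rw [← Finset.mul_sum, Finset.sum_neg_distrib] at hsum
  have hβN : (α ^ N)⁻¹ * (-(α / π) ^ 2) ^ N = ((-β) ^ N)⁻¹ := by
    rw [← inv_pow, ← inv_pow, ← mul_pow]
    congr 1
    field_simp
    linear_combination -h
  linear_combination (α ^ N)⁻¹ * hf + 2 ^ (2 * N) * hsum +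
    (pser (2 * N + 1) / 2 + lser (2 * N + 1) (β / π)) * hβN

end FA.RamanujanZeta

end
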